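import Fermat.Agent.S07.Index

set_option autoImplicit false

namespace Fermat.Agent.S07

open CongruenceSubgroup Matrix.SpecialLinearGroup UpperHalfPlane
open scoped MatrixGroups

theorem cuspForm_Gamma0_eq_zero (N : ℕ) [NeZero N] (hN : N ^ 2 < 6)
    (f : CuspForm (Gamma0 N) 2) : f = 0 := by
  have h1 : (1 : ℝ) ∈ (Gamma0 N : Subgroup (GL (Fin 2) ℝ)).strictPeriods := by
    simp [CongruenceSubgroup.strictPeriods_Gamma0]
  have hF : (ModularFormClass.modularForm f : ModularForm (Gamma0 N) 2) = 0 := by
    apply ModularForm.sturm_bound_Gamma0 N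
    intro n hn
    have hn0 : n = 0 := by
      have := index_Gamma0_le N
      omega
    subst hn0
    exact CuspFormClass.qExpansion_coeff_zero f one_pos h1
  ext z
  have := DFunLike.congr_fun hF z
  simpa using this

end Fermat.Agent.S07
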