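import Fermat.Statements.S07
import Fermat.Prelude.Thm_ModularForm_sturm_bound_Gamma0

set_option autoImplicit false

namespace Fermat.Agent.S07

open CongruenceSubgroup Matrix.SpecialLinearGroup UpperHalfPlane
open scoped MatrixGroups

theorem index_le_card_of_sep {G α : Type*} [Group G] [Finite α] (H : Subgroup G) (φ : G → α)
    (h : ∀ g g', φ g = φ g' → g⁻¹ * g' ∈ H) : H.index ≤ Nat.card α := by
  rw [Subgroup.index]
  apply Nat.card_le_card_of_injective (fun q : G ⧸ H => φ (Quotient.out q))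
  intro q q' hq
  have := h _ _ hq
  rw [← QuotientGroup.eq] at this
  simpa using this

theorem index_Gamma0_le (N : ℕ) [NeZero N] : (Gamma0 N).index ≤ N ^ 2 := by
  have key := index_le_card_of_sep (Gamma0 N)
    (fun g : SL(2, ℤ) => (((g 0 0 : ℤ) : ZMod N), ((g 1 0 : ℤ) : ZMod N))) ?_
  · simpa [Nat.card_prod, pow_two] using key
  · intro g g' hgg'
    simp only [Prod.mk.injEq] at hgg'
    rw [Gamma0_mem]
    have h1 : (g⁻¹ * g') 1 0 = - g 1 0 * g' 0 0 + g 0 0 * g' 1 0 := by
      rw [Matrix.SpecialLinearGroup.coe_mul, Matrix.SpecialLinearGroup.SL2_inv_expl,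
        Matrix.mul_apply, Fin.sum_univ_two]
      simp
    rw [h1]
    push_cast
    rw [hgg'.1, hgg'.2]
    ring

end Fermat.Agent.S07
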